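import Mathlib

/-!
# Generator-invariance algebra for the weak Chebotarev (Frobenius density) theorem

The qualitative Frobenius density theorem only produces, for `g` in a finite Galois group, a
Frobenius element `τ` with `g = τ ^ j`.  The consumers (dimension lemma, trace comparison)
know a quadratic relation / a characteristic polynomial for `τ` and need one for `g`.
This file provides the universal identities:

* `powSumSeq a d j` : the Lucas/Dickson sequence `t₀ = 2, t₁ = a, t_{j+2} = a t_{j+1} - d t_j`
  (`= α^j + β^j` if `X² - aX + d = (X - α)(X - β)`);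
* `quadratic_relation_pow` : `x² - a x + d = 0 → (x^j)² - t_j x^j + d^j = 0` in any algebra;
* `trace_pow_fin_two`, `charpoly_pow_fin_two`,
  `charpoly_pow_eq_of_charpoly_eq` : for `2 × 2` matrices over a commutative ring the
  characteristic polynomial of `A ^ j` is a function of the characteristic polynomial of `A`.
-/

set_option autoImplicit false

namespace Fermat.Agent.Lib.Cheb.H161

open Polynomial

section Seq

variable {R : Type*} [CommRing R]

/-- The power-sum (Lucas / Dickson) sequence: `t 0 = 2`, `t 1 = a`,
`t (j+2) = a * t (j+1) - d * t j`. -/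
def powSumSeq (a d : R) : ℕ → R
  | 0 => 2
  | 1 => a
  | (j + 2) => a * powSumSeq a d (j + 1) - d * powSumSeq a d j

@[simp] lemma powSumSeq_zero (a d : R) : powSumSeq a d 0 = 2 := rfl

@[simp] lemma powSumSeq_one (a d : R) : powSumSeq a d 1 = a := rfl

lemma powSumSeq_add_two (a d : R) (j : ℕ) :
    powSumSeq a d (j + 2) = a * powSumSeq a d (j + 1) - d * powSumSeq a d j := rfl

lemma powSumSeq_two (a d : R) : powSumSeq a d 2 = a ^ 2 - 2 * d := by
  rw [powSumSeq_add_two]; simp; ring

/-- The sequence is natural in the coefficient ring. -/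
lemma map_powSumSeq {S : Type*} [CommRing S] (f : R →+* S) (a d : R) (j : ℕ) :
    f (powSumSeq a d j) = powSumSeq (f a) (f d) j := by
  induction j using Nat.strong_induction_on with
  | _ j ih =>
    match j, ih with
    | 0, _ => simp only [powSumSeq_zero, map_ofNat]
    | 1, _ => simp
    | (j + 2), ih =>
      rw [powSumSeq_add_two, powSumSeq_add_two, map_sub, map_mul, map_mul,
        ih (j + 1) (by omega), ih j (by omega)]

/-- If `a = α + β` and `d = α * β` then `t_j = α^j + β^j`. -/
lemma powSumSeq_eq_pow_add_pow (α β : R) (j : ℕ) :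
    powSumSeq (α + β) (α * β) j = α ^ j + β ^ j := by
  induction j using Nat.strong_induction_on with
  | _ j ih =>
    match j, ih with
    | 0, _ => simp; norm_num
    | 1, _ => simp
    | (j + 2), ih =>
      rw [powSumSeq_add_two, ih (j + 1) (by omega), ih j (by omega)]
      ring

end Seq

section Algebra

variable {R : Type*} [CommRing R] {A : Type*} [Ring A] [Algebra R A]

/-- Two commuting elements with central sum `a` and central product `d` have
`x^j + y^j = t_j(a,d)`. -/
lemma pow_add_pow_eq_powSumSeq {x y : A} {a d : R} (hc : Commute x y)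
    (hs : x + y = algebraMap R A a) (hp : x * y = algebraMap R A d) (j : ℕ) :
    x ^ j + y ^ j = algebraMap R A (powSumSeq a d j) := by
  induction j using Nat.strong_induction_on with
  | _ j ih =>
    match j, ih with
    | 0, _ =>
      simp only [pow_zero, powSumSeq_zero, map_ofNat]
      exact one_add_one_eq_two
    | 1, _ => simpa using hs
    | (j + 2), ih =>
      have h1 := ih (j + 1) (by omega)
      have h0 := ih j (by omega)
      rw [powSumSeq_add_two, map_sub, map_mul, map_mul, ← h1, ← h0, ← hs, ← hp]
      have hyx : y * x = x * y := hc.eq.symm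
      have e1 : (x + y) * (x ^ (j + 1) + y ^ (j + 1)) - x * y * (x ^ j + y ^ j)
          = x ^ (j + 2) + y ^ (j + 2) + (x * y ^ (j + 1) + y * x ^ (j + 1)
            - x * y * x ^ j - x * y * y ^ j) := by
        rw [pow_succ' x (j + 1), pow_succ' y (j + 1)]
        noncomm_ring
      rw [e1]
      have e2 : y * x ^ (j + 1) = x * y * x ^ j := by
        rw [pow_succ', ← mul_assoc, hyx]
      have e3 : x * y ^ (j + 1) = x * y * y ^ j := by
        rw [pow_succ', ← mul_assoc]
      rw [e2, e3]
      abel

/-- **Quadratic relations pass to powers.**  If `x² - a x + d = 0` then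
`(x^j)² - t_j(a,d) x^j + d^j = 0`. -/
theorem quadratic_relation_pow {x : A} {a d : R}
    (h : x * x - a • x + d • (1 : A) = 0) (j : ℕ) :
    x ^ j * x ^ j - powSumSeq a d j • x ^ j + (d ^ j) • (1 : A) = 0 := by
  set y : A := algebraMap R A a - x with hy
  have hxa : Commute x (algebraMap R A a) := (Algebra.commutes a x).symm
  have hc : Commute x y := by
    rw [hy]; exact hxa.sub_right (Commute.refl x)
  have hs : x + y = algebraMap R A a := by rw [hy]; abel
  have hp : x * y = algebraMap R A d := by
    have h' : x * x = a • x - d • (1 : A) := by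
      have := h
      rw [sub_add_eq_add_sub, sub_eq_zero] at this
      rw [← this]; abel
    rw [hy, mul_sub, h', Algebra.algebraMap_eq_smul_one, mul_smul_comm, mul_one,
      Algebra.algebraMap_eq_smul_one]
    abel
  have hpow := pow_add_pow_eq_powSumSeq hc hs hp j
  have hprod : x ^ j * y ^ j = algebraMap R A (d ^ j) := by
    rw [← hc.mul_pow, hp, map_pow]
  rw [Algebra.smul_def, Algebra.smul_def, mul_one, ← hpow, ← hprod]
  have hcj : Commute (x ^ j) (y ^ j) := hc.pow_pow j j
  rw [add_mul, hcj.eq.symm]
  abel

/-- Version for endomorphisms of a module, pointwise. -/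
theorem quadratic_relation_pow_apply {M : Type*} [AddCommGroup M] [Module R M]
    {f : M →ₗ[R] M} {a d : R} (h : ∀ m, f (f m) - a • f m + d • m = 0) (j : ℕ) (m : M) :
    (f ^ j) ((f ^ j) m) - powSumSeq a d j • (f ^ j) m + d ^ j • m = 0 := by
  have h' : f * f - a • f + d • (1 : Module.End R M) = 0 := by
    ext m; simpa using h m
  have := quadratic_relation_pow h' j
  have := congrArg (fun g : Module.End R M => g m) this
  simpa using this

end Algebra

section Matrix

variable {R : Type*} [CommRing R]

open Matrix

/-- `A + adj A = tr A` for `2 × 2` matrices. -/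
lemma add_adjugate_fin_two (A : Matrix (Fin 2) (Fin 2) R) :
    A + A.adjugate = algebraMap R (Matrix (Fin 2) (Fin 2) R) A.trace := by
  rw [Matrix.adjugate_fin_two, Matrix.trace_fin_two]
  ext i j
  fin_cases i <;> fin_cases j <;> simp [Matrix.algebraMap_matrix_apply, add_comm]

/-- `tr (A ^ j) = t_j (tr A, det A)` for `2 × 2` matrices over any commutative ring. -/
theorem trace_pow_fin_two (A : Matrix (Fin 2) (Fin 2) R) (j : ℕ) :
    (A ^ j).trace = powSumSeq A.trace A.det j := by
  have hc : Commute A A.adjugate := by
    rw [Commute, SemiconjBy, Matrix.mul_adjugate, Matrix.adjugate_mul]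
  have hs := add_adjugate_fin_two A
  have hp : A * A.adjugate = algebraMap R (Matrix (Fin 2) (Fin 2) R) A.det := by
    rw [Matrix.mul_adjugate, Algebra.algebraMap_eq_smul_one]
  have h1 := pow_add_pow_eq_powSumSeq hc hs hp j
  have h2 := add_adjugate_fin_two (A ^ j)
  rw [Matrix.adjugate_pow, h1] at h2
  have h3 := congrFun (congrFun h2 0) 0
  simpa [Matrix.algebraMap_matrix_apply] using h3.symm

/-- The characteristic polynomial of a power of a `2 × 2` matrix. -/
theorem charpoly_pow_fin_two (A : Matrix (Fin 2) (Fin 2) R) (j : ℕ) :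
    (A ^ j).charpoly = X ^ 2 - C (powSumSeq A.trace A.det j) * X + C (A.det ^ j) := by
  nontriviality R
  rw [Matrix.charpoly_fin_two, trace_pow_fin_two, Matrix.det_pow]

/-- Trace and determinant can be read off the characteristic polynomial (`2 × 2`). -/
lemma trace_det_eq_of_charpoly_eq {A B : Matrix (Fin 2) (Fin 2) R}
    (h : A.charpoly = B.charpoly) : A.trace = B.trace ∧ A.det = B.det := by
  nontriviality R
  rw [Matrix.charpoly_fin_two, Matrix.charpoly_fin_two] at h
  have h1 := congrArg (fun p : R[X] => p.coeff 1) h
  have h0 := congrArg (fun p : R[X] => p.coeff 0) h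
  simp only [coeff_add, coeff_sub, coeff_X_pow, coeff_C_mul, coeff_X_one,
    coeff_X_zero, coeff_C] at h1 h0
  constructor
  · simpa using h1
  · simpa using h0

/-- **The characteristic polynomial of `A ^ j` only depends on that of `A`** (`2 × 2`). -/
theorem charpoly_pow_eq_of_charpoly_eq {A B : Matrix (Fin 2) (Fin 2) R}
    (h : A.charpoly = B.charpoly) (j : ℕ) : (A ^ j).charpoly = (B ^ j).charpoly := by
  obtain ⟨ht, hd⟩ := trace_det_eq_of_charpoly_eq h
  rw [charpoly_pow_fin_two, charpoly_pow_fin_two, ht, hd]

/-- Same statement for traces and determinants. -/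
theorem trace_det_pow_eq_of_eq {A B : Matrix (Fin 2) (Fin 2) R}
    (ht : A.trace = B.trace) (hd : A.det = B.det) (j : ℕ) :
    (A ^ j).trace = (B ^ j).trace ∧ (A ^ j).det = (B ^ j).det := by
  rw [trace_pow_fin_two, trace_pow_fin_two, Matrix.det_pow, Matrix.det_pow, ht, hd]
  exact ⟨rfl, rfl⟩

/-- Different base rings: if `f (tr A) = tr B` and `f (det A) = det B` then the same holds
for all powers. -/
theorem map_trace_det_pow {S : Type*} [CommRing S] (f : R →+* S)
    {A : Matrix (Fin 2) (Fin 2) R} {B : Matrix (Fin 2) (Fin 2) S}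
    (ht : f A.trace = B.trace) (hd : f A.det = B.det) (j : ℕ) :
    f (A ^ j).trace = (B ^ j).trace ∧ f (A ^ j).det = (B ^ j).det := by
  rw [trace_pow_fin_two, trace_pow_fin_two, Matrix.det_pow, Matrix.det_pow, map_powSumSeq,
    map_pow, ht, hd]
  exact ⟨rfl, rfl⟩

end Matrix

end Fermat.Agent.Lib.Cheb.H161
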